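import Fermat.Agent.S56.GW.LEC.Fld.Dict

/-!
# [GW-LEC] / [LEC-BASEH1] (helper28; prefix `s56lf_`): the `H¹`-half of the base case

`s56lf_baseH1 : s56l_BaseH1_stmt` from helper7's `s56lk_card` (Kummer), the field dictionary
and the unit theorem `s56gwl_units_padic`.
-/

set_option autoImplicit false
set_option linter.unusedSectionVars false

namespace Fermat.Agent.S56

open Fermat.Agent.S55 ExtCitation IntermediateField MonoidAlgebra

variable {q : Nat.Primes} {W U : Subgroup (primeLocalGaloisGroup q)}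

/-- Levels are open. -/
theorem s56lf_isOpen_of_baseHyp {p : ℕ} (h : s56l_BaseHyp p q W U) :
    IsOpen ((s56lf_cast q W : Subgroup (s56lf_G (q : ℕ))) : Set (s56lf_G (q : ℕ))) := by
  obtain ⟨V₀, ⟨_, ⟨F, hF, rfl⟩, rfl⟩, hle⟩ := h.level
  exact s56lf_isOpen_of_le (q : ℕ) (s56lf_cast q W) F hle

section homEquiv

variable {p : ℕ} (N : Type) [AddCommGroup N] [DistribMulAction ↥U N]

/-- `Hom(N, Ω) ≃+ Hom(N, μ_p)` for `p`-torsion `N`. -/
noncomputable def s56lf_homEquiv (hN : ∀ n : N, p • n = 0) :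
    (N →+ tl_locUnits q) ≃+ LvHom N ↥(s56l_mu p q) where
  toFun x := LvHom.of (x.codRestrict (s56l_mu p q) (fun n => by
    show p • x n = 0
    rw [← map_nsmul, hN, map_zero]))
  invFun y := (s56l_mu p q).subtype.comp (LvHom.toHom y)
  left_inv x := by
    ext n
    rfl
  right_inv y := by
    ext n
    rfl
  map_add' x y := by
    ext n
    rfl

theorem s56lf_homEquiv_act (hN : ∀ n : N, p • n = 0) (u : ↥U) (x : N →+ tl_locUnits q) :
    s56lf_homEquiv N hN (s56lk_act u x) = u • s56lf_homEquiv N hN x := by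
  ext n
  rfl

end homEquiv

section muEquiv

variable {p : ℕ} [Normal ℚ_[(q : ℕ)] (s56lf_Fq q W)] [FiniteDimensional ℚ_[(q : ℕ)] (s56lf_Fq q W)]
  {M : Type} [AddCommGroup M] [Module (MonoidAlgebra ℤ (s56lf_Gam q W U)) M]
  (μ : s56gwl_Model (s56lf_Eq q W U) (s56lf_Fq q W) M)

/-- `μ_p ≃+ M[p]` for a model `M` of `Fˣ`, `μ_p ⊆ F`. -/
noncomputable def s56lf_muEquiv (hWU : W ≤ U)
    (hfix : ∀ ζ : ↥(s56l_mu p q), ζ.1 ∈ s56lk_fix (W.subgroupOf U) (tl_locUnits q)) :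
    ↥(s56l_mu p q) ≃+
      ↥(LinearMap.ker (s56gwl_mulp (Λ := MonoidAlgebra ℤ (s56lf_Gam q W U)) M p)) where
  toFun ζ := ⟨s56lf_theta μ hWU ⟨ζ.1, hfix ζ⟩, by
    rw [LinearMap.mem_ker, s56gwl_mulp_apply, ← map_nsmul]
    have : p • (⟨ζ.1, hfix ζ⟩ : ↥(s56lk_fix (W.subgroupOf U) (tl_locUnits q))) = 0 :=
      Subtype.ext ζ.2
    rw [this, map_zero]⟩
  invFun k := ⟨((s56lf_theta μ hWU).symm k.1).1, by
    have hk : p • k.1 = 0 := k.2
    have h1 : p • (s56lf_theta μ hWU).symm k.1 = 0 := by rw [← map_nsmul, hk, map_zero]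
    exact congrArg Subtype.val h1⟩
  left_inv ζ := by
    apply Subtype.ext
    show ((s56lf_theta μ hWU).symm (s56lf_theta μ hWU ⟨ζ.1, hfix ζ⟩)).1 = ζ.1
    rw [AddEquiv.symm_apply_apply]
  right_inv k := by
    apply Subtype.ext
    show s56lf_theta μ hWU ⟨((s56lf_theta μ hWU).symm k.1).1, _⟩ = k.1
    exact (s56lf_theta μ hWU).apply_symm_apply k.1
  map_add' ζ ζ' := by
    apply Subtype.ext
    show s56lf_theta μ hWU ⟨(ζ + ζ').1, _⟩ = s56lf_theta μ hWU ⟨ζ.1, _⟩ + s56lf_theta μ hWU ⟨ζ'.1, _⟩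
    rw [← map_add]
    rfl

theorem s56lf_muEquiv_smul (hWU : W ≤ U)
    (hfix : ∀ ζ : ↥(s56l_mu p q), ζ.1 ∈ s56lk_fix (W.subgroupOf U) (tl_locUnits q))
    (u : ↥U) (ζ : ↥(s56l_mu p q)) :
    s56lf_muEquiv μ hWU hfix (u • ζ) =
      of ℤ (s56lf_Gam q W U) (s56lf_rq q W U u) • s56lf_muEquiv μ hWU hfix ζ := by
  apply Subtype.ext
  show s56lf_theta μ hWU ⟨(u • ζ).1, _⟩ = of ℤ _ (s56lf_rq q W U u) • s56lf_theta μ hWU ⟨ζ.1, _⟩
  exact s56lf_theta_smul μ hWU u ⟨ζ.1, hfix ζ⟩ (hfix (u • ζ))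

end muEquiv

section main

variable {p : ℕ}

theorem s56lf_pPrime_iff [Fact p.Prime] : q = pPrime p ↔ p = (q : ℕ) := by
  constructor
  · intro h
    rw [h]
    rfl
  · intro h
    apply Subtype.ext
    exact h.symm

/-- **[LEC-BASEH1]**. -/
theorem s56lf_baseH1_aux [Fact p.Prime] (hB : s56l_BaseHyp p q W U)
    (N : Type) [AddCommGroup N] [DistribMulAction ↥U N] (hN : s56l_CoefHyp p W U N) :
    Finite (lvH1 (s56esh_LU (tl_levelsLoc q) U) N) ∧
    Nat.card (lvH1 (s56esh_LU (tl_levelsLoc q) U) N) =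
      Nat.card (lvH0 (G := U) (LvHom (LvHom N ↥(s56l_mu p q)) (s56l_Fp U p))) *
        Nat.card (lvH0 (G := U) (LvHom (LvHom N ↥(s56l_mu p q)) ↥(s56l_mu p q))) *
        (if q = pPrime p then Nat.card N ^ U.index else 1) := by
  have hp : p.Prime := Fact.out
  have hWn : W.Normal := hB.normal
  have hNfin : Finite N := hN.finite
  have hWopen := s56lf_isOpen_of_baseHyp hB
  have hfin : FiniteDimensional ℚ_[(q : ℕ)] (s56lf_Fq q W) := s56lf_finite (s56lf_cast q W) hWopen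
  have hgal : IsGalois ℚ_[(q : ℕ)] (s56lf_Fq q W) := s56lf_galois (s56lf_cast q W) hWopen hWn
  have hnorm : Normal ℚ_[(q : ℕ)] (s56lf_Fq q W) := inferInstance
  -- the Kummer setting
  have hVopen : ∃ V₀ ∈ ((tl_levelsLoc q).comap U.subtype).levels, V₀ ≤ W.subgroupOf U := by
    obtain ⟨V₀, hV₀, hle⟩ := hB.level
    exact ⟨V₀.comap U.subtype, ⟨V₀, hV₀, rfl⟩, fun u hu => Subgroup.mem_subgroupOf.2 (hle hu)⟩
  have hcop : (W.subgroupOf U).index.Coprime p :=
    ((Nat.Prime.coprime_iff_not_dvd hp).2 hB.index).symm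
  have hμ : ∀ ζ : tl_locUnits q, p • ζ = 0 → ∀ v ∈ W.subgroupOf U, v • ζ = ζ := by
    intro ζ hζ v hv
    have := hB.mu (v : primeLocalGaloisGroup q) (Subgroup.mem_subgroupOf.1 hv) ⟨ζ, hζ⟩
    exact congrArg Subtype.val this
  have htriv : ∀ v ∈ W.subgroupOf U, ∀ n : N, v • n = n :=
    fun v hv n => hN.triv v (Subgroup.mem_subgroupOf.1 hv) n
  have S := s56lk_loc_setting q U hp (W.subgroupOf U) inferInstance hVopen hcop hμ N hN.tors htriv
  -- the Galois group and the canonical model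
  set r := s56lf_rq q W U with hr_def
  have hr : Function.Surjective r := s56lf_rq_surjective q W U
  have hker : r.ker = W.subgroupOf U := s56lf_rq_ker hWopen
  set μ := s56gwl_unitsModel ↥(s56lf_Eq q W U) ↥(s56lf_Fq q W) with hμ_def
  have hC : (Nat.card (s56lf_Gam q W U)).Coprime p := by
    have : Nat.card (s56lf_Gam q W U) = (W.subgroupOf U).index :=
      s56lf_card_gal (s56lf_cast q W) (s56lf_cast q U) hWopen
    rw [this]
    exact hcop
  -- the module `X = Hom(N, μ_p)` and its descent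
  have hX : ∀ u : ↥U, r u = 1 → ∀ x : LvHom N ↥(s56l_mu p q), u • x = x := by
    intro u hu x
    have huW : u ∈ W.subgroupOf U := by rw [← hker]; exact hu
    have huW' : (u : primeLocalGaloisGroup q) ∈ W := Subgroup.mem_subgroupOf.1 huW
    have hinv : u⁻¹ ∈ W.subgroupOf U := inv_mem huW
    refine LvHom.ext (fun n => ?_)
    rw [LvHom.smul_apply, htriv u⁻¹ hinv n]
    exact hB.mu (u : primeLocalGaloisGroup q) huW' (x n)
  have hZtors : ∀ z : ↥(s56l_mu p q), p • z = 0 := s56l_mu_tors p q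
  have hXfin : Finite (LvHom N ↥(s56l_mu p q)) := by
    have : Finite ↥(s56l_mu p q) := Nat.finite_of_card_ne_zero (by rw [s56l_mu_card]; exact hp.ne_zero)
    exact Finite.of_injective (fun f : N →+ ↥(s56l_mu p q) => (f : N → ↥(s56l_mu p q)))
      DFunLike.coe_injective
  have hXtors : ∀ x : LvHom N ↥(s56l_mu p q), p • x = 0 := by
    intro x
    refine LvHom.ext (fun n => ?_)
    show p • x n = 0
    exact hZtors (x n)
  have hX'tors := s56lf_desc_nsmul r hr (LvHom N ↥(s56l_mu p q)) hX p hXtors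
  have key := s56gwl_units_padic (q := (q : ℕ)) ↥(s56lf_Fq q W) ↥(s56lf_Eq q W U) μ hp hC
    (s56lf_Desc r hr (LvHom N ↥(s56l_mu p q)) hX) hX'tors
  obtain ⟨hQfin, hcount⟩ := key
  -- (1) `#H¹ = a(X', M)`
  have h1 : Nat.card (lvH1 (s56esh_LU (tl_levelsLoc q) U) N) =
      s56gwl_a (MonoidAlgebra ℤ (s56lf_Gam q W U))
        (s56lf_Desc r hr (LvHom N ↥(s56l_mu p q)) hX)
        (Representation.ofMulDistribMulAction (s56lf_Gam q W U) (↥(s56lf_Fq q W))ˣ).asModule p := by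
    rw [show s56esh_LU (tl_levelsLoc q) U = (tl_levelsLoc q).comap U.subtype from rfl,
      s56lk_card S (s56lf_model μ hB.le p)]
    exact s56lf_transport r hr (s56lk_act) (fun u b => u • b)
      ((s56lf_homEquiv N hN.tors).trans (s56lf_descEquiv r hr (LvHom N ↥(s56l_mu p q)) hX))
      (s56lf_viaOf r _).symm
      (fun u x => by
        show s56lf_descEquiv r hr _ hX (s56lf_homEquiv N hN.tors (s56lk_act u x)) = _
        rw [s56lf_homEquiv_act, s56lf_descEquiv_smul]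
        rfl)
      (fun u b => rfl)
  -- (2) `#Hom_Λ(X', F_p) = #Hom_U(X, F_p)`
  have h2 : Nat.card (lvH0 (G := U) (LvHom (LvHom N ↥(s56l_mu p q)) (s56l_Fp U p))) =
      s56gwl_cnt (MonoidAlgebra ℤ (s56lf_Gam q W U))
        (s56lf_Desc r hr (LvHom N ↥(s56l_mu p q)) hX)
        (s56gwl_Triv (s56lf_Gam q W U) (ZMod p)) := by
    rw [s56lf_card_lvH0_hom]
    exact s56lf_transport r hr (fun u x => u • x) (fun u b => u • b)
      (s56lf_descEquiv r hr (LvHom N ↥(s56l_mu p q)) hX)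
      ((show s56l_Fp U p ≃+ ZMod p from AddEquiv.refl _).trans
        (Representation.trivial ℤ (s56lf_Gam q W U) (ZMod p)).asModuleEquiv.symm.toAddEquiv)
      (fun u x => s56lf_descEquiv_smul r hr _ hX u x)
      (fun u b => by
        rw [s56gwl_triv_smul]
        rfl)
  -- (3) `#Hom_Λ(X', M[p]) = #Hom_U(X, μ_p)`
  have hfix : ∀ ζ : ↥(s56l_mu p q), ζ.1 ∈ s56lk_fix (W.subgroupOf U) (tl_locUnits q) :=
    fun ζ v hv => hμ ζ.1 ζ.2 v hv
  have h3 : Nat.card (lvH0 (G := U) (LvHom (LvHom N ↥(s56l_mu p q)) ↥(s56l_mu p q))) =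
      s56gwl_b (MonoidAlgebra ℤ (s56lf_Gam q W U))
        (s56lf_Desc r hr (LvHom N ↥(s56l_mu p q)) hX)
        (Representation.ofMulDistribMulAction (s56lf_Gam q W U) (↥(s56lf_Fq q W))ˣ).asModule p := by
    rw [s56lf_card_lvH0_hom]
    exact s56lf_transport r hr (fun u x => u • x) (fun u b => u • b)
      (s56lf_descEquiv r hr (LvHom N ↥(s56l_mu p q)) hX)
      (s56lf_muEquiv μ hB.le hfix)
      (fun u x => s56lf_descEquiv_smul r hr _ hX u x)
      (fun u ζ => s56lf_muEquiv_smul μ hB.le hfix u ζ)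
  -- (4) `#X' = #N`
  have h4 : Nat.card (s56lf_Desc r hr (LvHom N ↥(s56l_mu p q)) hX) = Nat.card N := by
    rw [s56lf_desc_card]
    have hZfin : Finite ↥(s56l_mu p q) :=
      Nat.finite_of_card_ne_zero (by rw [s56l_mu_card]; exact hp.ne_zero)
    have := s56gwl_card_addHom hp N ↥(s56l_mu p q) hN.tors hZtors 1
      (by rw [s56l_mu_card, pow_one])
    rw [pow_one] at this
    exact this
  -- (5) the degree
  have h5 : Module.finrank ℚ_[(q : ℕ)] ↥(s56lf_Eq q W U) = U.index :=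
    s56lf_finrank_E (s56lf_cast q W) (s56lf_cast q U) hWopen hB.le
  -- finiteness
  have hX'fin : Finite (s56lf_Desc r hr (LvHom N ↥(s56l_mu p q)) hX) := inferInstance
  have hHomfin : Finite ((s56lf_Desc r hr (LvHom N ↥(s56l_mu p q)) hX) →ₗ[MonoidAlgebra ℤ (s56lf_Gam q W U)]
      ((Representation.ofMulDistribMulAction (s56lf_Gam q W U) (↥(s56lf_Fq q W))ˣ).asModule ⧸
        LinearMap.range (s56gwl_mulp (Λ := MonoidAlgebra ℤ (s56lf_Gam q W U))
          (Representation.ofMulDistribMulAction (s56lf_Gam q W U) (↥(s56lf_Fq q W))ˣ).asModule p))) :=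
    Finite.of_injective (fun f => (f : _ → _)) DFunLike.coe_injective
  have hne : Nat.card (lvH1 (s56esh_LU (tl_levelsLoc q) U) N) ≠ 0 := by
    rw [h1]
    exact Nat.card_pos.ne'
  refine ⟨Nat.finite_of_card_ne_zero hne, ?_⟩
  rw [h1, hcount, h2, h3, h4, h5]
  congr 1
  by_cases hqp : q = pPrime p
  · rw [if_pos hqp, if_pos (s56lf_pPrime_iff.1 hqp)]
  · rw [if_neg hqp, if_neg (fun h => hqp (s56lf_pPrime_iff.2 h)), pow_zero]

/-- **[LEC-BASEH1]** `#H¹(U,N) = #Hom_U(N^*, F_p) · #Hom_U(N^*, μ_p) · #N^{[q = p]·[G_q : U]}`. -/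
theorem s56lf_baseH1 : s56l_BaseH1_stmt := by
  intro p _ _ q W U hB N _ _ hN
  exact s56lf_baseH1_aux hB N hN

end main

end Fermat.Agent.S56
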