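import Mathlib
import Fermat.Agent.S56.GW.LEC.Coind
import Fermat.Agent.S55.Level.HomModule

/-!
# [GW-LEC] / [LEC-FLD] (helper28; prefix `s56lf_`): descent of actions along a surjection

`r : U →* Γ` surjective.
* `s56lf_descRep r hr X hX` : a `U`-module `X` on which `ker r` acts trivially, as a representation
  of `Γ`; `s56lf_Desc r hr X hX` the corresponding `ℤ[Γ]`-module, `s56lf_descEquiv : X ≃+ Desc`;
* `s56lf_transport` : equivariant homomorphisms of `U`-modules versus `ℤ[Γ]`-linear maps.
-/

set_option autoImplicit false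

namespace Fermat.Agent.S56

open Fermat.Agent.S55 MonoidAlgebra

section Desc

variable {U Γ : Type*} [Group U] [Group Γ] (r : U →* Γ) (hr : Function.Surjective r)
  (X : Type*) [AddCommGroup X] [DistribMulAction U X]
  (hX : ∀ u : U, r u = 1 → ∀ x : X, u • x = x)

include hX in
theorem s56lf_smul_eq_of_r_eq {u u' : U} (h : r u = r u') (x : X) : u • x = u' • x := by
  have h1 : r (u'⁻¹ * u) = 1 := by rw [map_mul, map_inv, h, inv_mul_cancel]
  have h2 := hX _ h1 x
  rw [mul_smul] at h2
  rw [← h2, smul_inv_smul, h2]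

/-- The descended representation of `Γ` on `X`. -/
noncomputable def s56lf_descRep : Representation ℤ Γ X where
  toFun γ := (DistribSMul.toAddMonoidHom X (Function.surjInv hr γ)).toIntLinearMap
  map_one' := by
    ext x
    show Function.surjInv hr 1 • x = x
    exact hX _ (Function.surjInv_eq hr 1) x
  map_mul' γ γ' := by
    ext x
    show Function.surjInv hr (γ * γ') • x = Function.surjInv hr γ • Function.surjInv hr γ' • x
    rw [← mul_smul]
    apply s56lf_smul_eq_of_r_eq r X hX
    rw [map_mul, Function.surjInv_eq hr, Function.surjInv_eq hr, Function.surjInv_eq hr]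

theorem s56lf_descRep_apply (u : U) (x : X) : s56lf_descRep r hr X hX (r u) x = u • x := by
  show Function.surjInv hr (r u) • x = u • x
  exact s56lf_smul_eq_of_r_eq r X hX (Function.surjInv_eq hr (r u)) x

/-- The descended `ℤ[Γ]`-module. -/
abbrev s56lf_Desc : Type _ := (s56lf_descRep r hr X hX).asModule

/-- The identity `X ≃+ Desc`. -/
noncomputable def s56lf_descEquiv : X ≃+ s56lf_Desc r hr X hX :=
  (s56lf_descRep r hr X hX).asModuleEquiv.symm.toAddEquiv

theorem s56lf_descEquiv_smul (u : U) (x : X) :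
    s56lf_descEquiv r hr X hX (u • x) = of ℤ Γ (r u) • s56lf_descEquiv r hr X hX x := by
  have h := Representation.asModuleEquiv_symm_map_rho (s56lf_descRep r hr X hX) (r u) x
  rw [s56lf_descRep_apply] at h
  exact h

instance s56lf_desc_finite [Finite X] : Finite (s56lf_Desc r hr X hX) :=
  Finite.of_equiv X (s56lf_descEquiv r hr X hX).toEquiv

theorem s56lf_desc_card : Nat.card (s56lf_Desc r hr X hX) = Nat.card X :=
  (Nat.card_congr (s56lf_descEquiv r hr X hX).toEquiv).symm

theorem s56lf_desc_nsmul (n : ℕ) (h : ∀ x : X, n • x = 0) (y : s56lf_Desc r hr X hX) :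
    n • y = 0 := by
  obtain ⟨x, rfl⟩ := (s56lf_descEquiv r hr X hX).surjective y
  rw [← map_nsmul, h, map_zero]

end Desc

section Transport

variable {U Γ : Type*} [Group U] [Group Γ] (r : U →* Γ) (hr : Function.Surjective r)
  {A B : Type*} [AddCommGroup A] [AddCommGroup B]
  {A' B' : Type*} [AddCommGroup A'] [Module (MonoidAlgebra ℤ Γ) A'] [AddCommGroup B']
  [Module (MonoidAlgebra ℤ Γ) B']

include hr in
/-- Equivariant homomorphisms of `U`-modules versus `ℤ[Γ]`-linear maps. -/
theorem s56lf_transport (actA : U → A → A) (actB : U → B → B) (eA : A ≃+ A') (eB : B ≃+ B')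
    (hA : ∀ u a, eA (actA u a) = of ℤ Γ (r u) • eA a)
    (hB : ∀ u b, eB (actB u b) = of ℤ Γ (r u) • eB b) :
    Nat.card {φ : A →+ B // ∀ u a, φ (actA u a) = actB u (φ a)} =
      Nat.card (A' →ₗ[MonoidAlgebra ℤ Γ] B') := by
  have hA' : ∀ u a', eA.symm (of ℤ Γ (r u) • a') = actA u (eA.symm a') := by
    intro u a'
    apply eA.injective
    rw [hA, AddEquiv.apply_symm_apply, AddEquiv.apply_symm_apply]
  have hB' : ∀ u b', eB.symm (of ℤ Γ (r u) • b') = actB u (eB.symm b') := by
    intro u b'
    apply eB.injective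
    rw [hB, AddEquiv.apply_symm_apply, AddEquiv.apply_symm_apply]
  refine Nat.card_congr
    { toFun := fun φ => s56gwl_linOf
        ((eB.toAddMonoidHom.comp φ.1).comp eA.symm.toAddMonoidHom) (by
          intro γ a'
          obtain ⟨u, rfl⟩ := hr γ
          show eB (φ.1 (eA.symm (of ℤ Γ (r u) • a'))) = of ℤ Γ (r u) • eB (φ.1 (eA.symm a'))
          rw [hA', φ.2, hB])
      invFun := fun ψ => ⟨(eB.symm.toAddMonoidHom.comp ψ.toAddMonoidHom).comp eA.toAddMonoidHom, by
          intro u a
          show eB.symm (ψ (eA (actA u a))) = actB u (eB.symm (ψ (eA a)))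
          rw [hA, map_smul, hB']⟩
      left_inv := fun φ => by
        apply Subtype.ext
        ext a
        show eB.symm (eB (φ.1 (eA.symm (eA a)))) = φ.1 a
        rw [AddEquiv.symm_apply_apply, AddEquiv.symm_apply_apply]
      right_inv := fun ψ => by
        ext a'
        show eB (eB.symm (ψ (eA (eA.symm a')))) = ψ a'
        rw [AddEquiv.apply_symm_apply, AddEquiv.apply_symm_apply] }

end Transport

section H0

variable {U : Type*} [Group U] (A B : Type*) [AddCommGroup A] [AddCommGroup B]
  [DistribMulAction U A] [DistribMulAction U B]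

/-- `lvH0 (LvHom A B)` is the set of equivariant homomorphisms. -/
theorem s56lf_card_lvH0_hom :
    Nat.card (lvH0 (G := U) (LvHom A B)) =
      Nat.card {φ : A →+ B // ∀ (u : U) (a : A), φ (u • a) = u • φ a} :=
  Nat.card_congr
    { toFun := fun φ => ⟨LvHom.toHom φ.1, (LvHom.mem_lvH0_iff φ.1).1 φ.2⟩
      invFun := fun φ => ⟨LvHom.of φ.1, (LvHom.mem_lvH0_iff (LvHom.of φ.1)).2 φ.2⟩
      left_inv := fun _ => rfl
      right_inv := fun _ => rfl }

end H0

section Via

variable {U Γ : Type*} [Group U] [Group Γ]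

/-- A `ℤ[Γ]`-module viewed as a `U`-module through `r : U →* Γ`. -/
@[nolint unusedArguments]
def s56lf_Via (_r : U →* Γ) (T : Type*) : Type _ := T

variable (r : U →* Γ) (T : Type*) [AddCommGroup T] [Module (MonoidAlgebra ℤ Γ) T]

instance s56lf_Via.instAddCommGroup : AddCommGroup (s56lf_Via r T) :=
  inferInstanceAs (AddCommGroup T)

/-- The identity `T ≃+ Via r T`. -/
def s56lf_viaOf : T ≃+ s56lf_Via r T := AddEquiv.refl T

noncomputable instance s56lf_Via.instAction : DistribMulAction U (s56lf_Via r T) where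
  smul u t := s56lf_viaOf r T (of ℤ Γ (r u) • (s56lf_viaOf r T).symm t)
  one_smul t := by
    show s56lf_viaOf r T (of ℤ Γ (r 1) • (s56lf_viaOf r T).symm t) = t
    rw [map_one, map_one, one_smul]
    rfl
  mul_smul u u' t := by
    show s56lf_viaOf r T (of ℤ Γ (r (u * u')) • (s56lf_viaOf r T).symm t) =
      s56lf_viaOf r T (of ℤ Γ (r u) • (of ℤ Γ (r u') • (s56lf_viaOf r T).symm t))
    rw [map_mul, map_mul, mul_smul]
  smul_zero u := by
    show s56lf_viaOf r T (of ℤ Γ (r u) • (0 : T)) = 0
    rw [smul_zero]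
    rfl
  smul_add u t t' := by
    show s56lf_viaOf r T (of ℤ Γ (r u) • ((s56lf_viaOf r T).symm t + (s56lf_viaOf r T).symm t'))
      = _
    rw [smul_add]
    rfl

theorem s56lf_Via.smul_def (u : U) (t : s56lf_Via r T) :
    u • t = s56lf_viaOf r T (of ℤ Γ (r u) • (s56lf_viaOf r T).symm t) := rfl

end Via

end Fermat.Agent.S56
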