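import Fermat.Agent.S56.GW.LEC.Fld.Layer
import Fermat.Agent.S56.GW.LEC.Fld.Desc
import Fermat.Agent.S56.GW.LEC.Kum.Local
import Fermat.Agent.S56.GW.LEC.UnitsQ
import Fermat.Agent.S55.Idele.Defs

/-!
# [GW-LEC] / [LEC-FLD] (helper28; prefix `s56lf_`): the units dictionary

For `W ≤ U ≤ G_q`, `W` open normal: the `W`-fixed points of `tl_locUnits q` are the units of
`F = fixedField W`, equivariantly for `U → Gal(F/E)`.
-/

set_option autoImplicit false
set_option linter.unusedSectionVars false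

namespace Fermat.Agent.S56

open Fermat.Agent.S55 ExtCitation IntermediateField MonoidAlgebra

variable (q : Nat.Primes)

/-- A subgroup of `primeLocalGaloisGroup q` as a subgroup of `Gal(ℚ̄_q/ℚ_q)`. -/
abbrev s56lf_cast (W : Subgroup (primeLocalGaloisGroup q)) : Subgroup (s56lf_G (q : ℕ)) := W

variable (W U : Subgroup (primeLocalGaloisGroup q))

/-- The field `F = fixedField W`. -/
noncomputable abbrev s56lf_Fq : IntermediateField ℚ_[(q : ℕ)] (PadicAlgCl (q : ℕ)) := s56lf_F (s56lf_cast q W)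

theorem s56lf_mem_Fq_iff (x : PadicAlgCl (q : ℕ)) :
    x ∈ s56lf_Fq q W ↔ ∀ w ∈ W, (show s56lf_G (q : ℕ) from w) x = x := by
  rw [IntermediateField.mem_fixedField_iff]
  rfl

theorem s56lf_val_smul (σ : primeLocalGaloisGroup q) (a : tl_locUnits q) :
    ((tl_locUnits.val q (σ • a) : (PadicAlgCl (q : ℕ))ˣ) : PadicAlgCl (q : ℕ)) =
      (show s56lf_G (q : ℕ) from σ) ((tl_locUnits.val q a : (PadicAlgCl (q : ℕ))ˣ) :
        PadicAlgCl (q : ℕ)) := rfl

theorem s56lf_ext {a b : tl_locUnits q}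
    (h : ((tl_locUnits.val q a : (PadicAlgCl (q : ℕ))ˣ) : PadicAlgCl (q : ℕ)) =
      ((tl_locUnits.val q b : (PadicAlgCl (q : ℕ))ˣ) : PadicAlgCl (q : ℕ))) : a = b :=
  Additive.toMul.injective (Units.ext h)

variable {q W U}

theorem s56lf_mem_fix_iff (hWU : W ≤ U) (a : tl_locUnits q) :
    a ∈ s56lk_fix (W.subgroupOf U) (tl_locUnits q) ↔
      ((tl_locUnits.val q a : (PadicAlgCl (q : ℕ))ˣ) : PadicAlgCl (q : ℕ)) ∈ s56lf_Fq q W := by
  rw [s56lf_mem_Fq_iff, s56lk_mem_fix]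
  constructor
  · intro h w hw
    have h1 := h ⟨w, hWU hw⟩ (Subgroup.mem_subgroupOf.2 hw)
    have h2 := congrArg (fun b => ((tl_locUnits.val q b : (PadicAlgCl (q : ℕ))ˣ) :
      PadicAlgCl (q : ℕ))) h1
    exact h2
  · intro h v hv
    apply s56lf_ext q
    exact h (v : primeLocalGaloisGroup q) (Subgroup.mem_subgroupOf.1 hv)

/-- The unit of `F` attached to a `W`-fixed element. -/
noncomputable def s56lf_toUnit (hWU : W ≤ U)
    (a : ↥(s56lk_fix (W.subgroupOf U) (tl_locUnits q))) : (↥(s56lf_Fq q W))ˣ :=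
  Units.mk0 ⟨((tl_locUnits.val q a.1 : (PadicAlgCl (q : ℕ))ˣ) : PadicAlgCl (q : ℕ)),
    (s56lf_mem_fix_iff hWU a.1).1 a.2⟩ (by
      intro h
      have := congrArg (fun x : ↥(s56lf_Fq q W) => (x : PadicAlgCl (q : ℕ))) h
      exact Units.ne_zero _ this)

theorem s56lf_toUnit_coe (hWU : W ≤ U) (a : ↥(s56lk_fix (W.subgroupOf U) (tl_locUnits q))) :
    (((s56lf_toUnit hWU a : (↥(s56lf_Fq q W))ˣ) : ↥(s56lf_Fq q W)) : PadicAlgCl (q : ℕ)) =
      ((tl_locUnits.val q a.1 : (PadicAlgCl (q : ℕ))ˣ) : PadicAlgCl (q : ℕ)) := rfl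

theorem s56lf_unit_ext {x y : (↥(s56lf_Fq q W))ˣ}
    (h : ((x : ↥(s56lf_Fq q W)) : PadicAlgCl (q : ℕ)) = ((y : ↥(s56lf_Fq q W)) : PadicAlgCl (q : ℕ))) :
    x = y := Units.ext (Subtype.ext h)

/-- `Ω^W ≃+ Additive Fˣ`. -/
noncomputable def s56lf_fixEquiv (hWU : W ≤ U) :
    ↥(s56lk_fix (W.subgroupOf U) (tl_locUnits q)) ≃+ Additive (↥(s56lf_Fq q W))ˣ where
  toFun a := Additive.ofMul (s56lf_toUnit hWU a)
  invFun y := ⟨tl_locUnits.of q (Units.map ((s56lf_Fq q W).val : ↥(s56lf_Fq q W) →* PadicAlgCl (q : ℕ))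
      y.toMul), (s56lf_mem_fix_iff hWU _).2 (y.toMul : ↥(s56lf_Fq q W)).2⟩
  left_inv a := Subtype.ext (s56lf_ext q rfl)
  right_inv y := by
    apply Additive.toMul.injective
    exact s56lf_unit_ext rfl
  map_add' a b := by
    apply Additive.toMul.injective
    exact s56lf_unit_ext rfl

section Equivariance

variable (q W U)
variable [Normal ℚ_[(q : ℕ)] (s56lf_Fq q W)] [FiniteDimensional ℚ_[(q : ℕ)] (s56lf_Fq q W)]

/-- The field `E = F^{U/W}`. -/
noncomputable abbrev s56lf_Eq : IntermediateField ℚ_[(q : ℕ)] (s56lf_Fq q W) :=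
  s56lf_E (s56lf_cast q W) (s56lf_cast q U)

/-- `Gal(F/E)`. -/
abbrev s56lf_Gam : Type := (s56lf_Fq q W) ≃ₐ[s56lf_Eq q W U] (s56lf_Fq q W)

/-- `U → Gal(F/E)`. -/
noncomputable def s56lf_rq : ↥U →* s56lf_Gam q W U :=
  s56lf_r (s56lf_cast q W) (s56lf_cast q U)

theorem s56lf_rq_coe (u : ↥U) (x : s56lf_Fq q W) :
    ((s56lf_rq q W U u x : s56lf_Fq q W) : PadicAlgCl (q : ℕ)) =
      (show s56lf_G (q : ℕ) from (u : primeLocalGaloisGroup q)) (x : PadicAlgCl (q : ℕ)) :=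
  s56lf_r_coe (s56lf_cast q W) (s56lf_cast q U) u x

theorem s56lf_rq_surjective : Function.Surjective (s56lf_rq q W U) :=
  s56lf_r_surjective (s56lf_cast q W) (s56lf_cast q U)

variable {q W U}

theorem s56lf_rq_ker (hW : IsOpen ((s56lf_cast q W : Subgroup (s56lf_G (q : ℕ))) : Set (s56lf_G (q : ℕ)))) :
    (s56lf_rq q W U).ker = W.subgroupOf U :=
  s56lf_r_ker (s56lf_cast q W) (s56lf_cast q U) hW

theorem s56lf_toUnit_smul (hWU : W ≤ U) (u : ↥U)
    (a : ↥(s56lk_fix (W.subgroupOf U) (tl_locUnits q)))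
    (hua : u • a.1 ∈ s56lk_fix (W.subgroupOf U) (tl_locUnits q)) :
    s56lf_toUnit hWU ⟨u • a.1, hua⟩ = lf_act (s56lf_rq q W U u) (s56lf_toUnit hWU a) := by
  apply s56lf_unit_ext
  rw [lf_act_coe, s56lf_rq_coe]
  rfl

variable {M : Type} [AddCommGroup M] [Module (MonoidAlgebra ℤ (s56lf_Gam q W U)) M]
  (μ : s56gwl_Model (s56lf_Eq q W U) (s56lf_Fq q W) M)

/-- `Ω^W ≃+ M` for a model `M` of `Fˣ`. -/
noncomputable def s56lf_theta (hWU : W ≤ U) :
    ↥(s56lk_fix (W.subgroupOf U) (tl_locUnits q)) ≃+ M :=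
  (s56lf_fixEquiv hWU).trans μ.e.symm

theorem s56lf_theta_apply (hWU : W ≤ U) (a : ↥(s56lk_fix (W.subgroupOf U) (tl_locUnits q))) :
    s56lf_theta μ hWU a = μ.ofU (s56lf_toUnit hWU a) := rfl

theorem s56lf_theta_smul (hWU : W ≤ U) (u : ↥U)
    (a : ↥(s56lk_fix (W.subgroupOf U) (tl_locUnits q)))
    (hua : u • a.1 ∈ s56lk_fix (W.subgroupOf U) (tl_locUnits q)) :
    s56lf_theta μ hWU ⟨u • a.1, hua⟩ =
      of ℤ (s56lf_Gam q W U) (s56lf_rq q W U u) • s56lf_theta μ hWU a := by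
  rw [s56lf_theta_apply, s56lf_theta_apply, s56lf_toUnit_smul hWU u a hua]
  apply μ.u_injective
  rw [μ.u_smul, μ.u_ofU, μ.u_ofU]

/-- **The Kummer model `Ω^W → M/pM`** for helper7's `s56lk_main`. -/
noncomputable def s56lf_model (hWU : W ≤ U) (p : ℕ) :
    s56lk_Model p (W.subgroupOf U) (tl_locUnits q)
      (s56lf_Via (s56lf_rq q W U)
        (M ⧸ LinearMap.range (s56gwl_mulp (Λ := MonoidAlgebra ℤ (s56lf_Gam q W U)) M p))) where
  π := ((s56lf_viaOf (s56lf_rq q W U) _).toAddMonoidHom.comp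
    (LinearMap.range (s56gwl_mulp (Λ := MonoidAlgebra ℤ (s56lf_Gam q W U)) M p)).mkQ.toAddMonoidHom).comp
      (s56lf_theta μ hWU).toAddMonoidHom
  surj := by
    intro y
    obtain ⟨m, hm⟩ := Submodule.Quotient.mk_surjective _ ((s56lf_viaOf (s56lf_rq q W U) _).symm y)
    refine ⟨(s56lf_theta μ hWU).symm m, ?_⟩
    show s56lf_viaOf (s56lf_rq q W U) _ (Submodule.Quotient.mk
      (s56lf_theta μ hWU ((s56lf_theta μ hWU).symm m))) = y
    rw [AddEquiv.apply_symm_apply, hm, AddEquiv.apply_symm_apply]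
  ker := by
    intro a
    show s56lf_viaOf (s56lf_rq q W U) _ (Submodule.Quotient.mk (s56lf_theta μ hWU a)) = 0 ↔ _
    rw [map_eq_zero_iff _ (s56lf_viaOf (s56lf_rq q W U) _).injective,
      Submodule.Quotient.mk_eq_zero]
    constructor
    · rintro ⟨m, hm⟩
      refine ⟨(s56lf_theta μ hWU).symm m, ?_⟩
      apply (s56lf_theta μ hWU).injective
      rw [map_nsmul, AddEquiv.apply_symm_apply]
      exact hm
    · rintro ⟨b, rfl⟩
      exact ⟨s56lf_theta μ hWU b, by rw [s56gwl_mulp_apply, map_nsmul]⟩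
  equiv := by
    intro g a ha hga
    show s56lf_viaOf (s56lf_rq q W U) _ (Submodule.Quotient.mk (s56lf_theta μ hWU ⟨g • a, hga⟩)) =
      s56lf_viaOf (s56lf_rq q W U) _ (of ℤ (s56lf_Gam q W U) (s56lf_rq q W U g) •
        (Submodule.Quotient.mk (s56lf_theta μ hWU ⟨a, ha⟩)))
    rw [s56lf_theta_smul μ hWU g ⟨a, ha⟩ hga, Submodule.Quotient.mk_smul]

end Equivariance

end Fermat.Agent.S56
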