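import Fermat.Agent.S56.GW.LEC.Fld.Open

/-!
# [GW-LEC] / [LEC-FLD] (helper28; prefix `s56lf_`): the layer `W ≤ U` as a field extension

For `W ⊴ G_q` open and `W ≤ U`: `F = fixedField W` (finite Galois over `ℚ_q`),
`E = F^{U/W} ⊆ F`, and `s56lf_r W U : ↥U →* Gal(F/E)` is onto with kernel `W ∩ U`;
`[E : ℚ_q] = [G_q : U]`, `#Gal(F/E) = [U : W]`.
-/

set_option autoImplicit false
set_option linter.unusedSectionVars false

namespace Fermat.Agent.S56

open Fermat.Agent.S55 ExtCitation IntermediateField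

section Res

variable {q : ℕ} [Fact q.Prime] (W : Subgroup (s56lf_G q)) [Normal ℚ_[q] (s56lf_F W)]

/-- Restriction `G_q → Gal(F/ℚ_q)`. -/
noncomputable def s56lf_res : s56lf_G q →* ((s56lf_F W) ≃ₐ[ℚ_[q]] (s56lf_F W)) :=
  AlgEquiv.restrictNormalHom (s56lf_F W)

theorem s56lf_res_surjective : Function.Surjective (s56lf_res W) :=
  AlgEquiv.restrictNormalHom_surjective (PadicAlgCl q)

theorem s56lf_res_coe (σ : s56lf_G q) (x : s56lf_F W) :
    ((s56lf_res W σ x : s56lf_F W) : PadicAlgCl q) = σ (x : PadicAlgCl q) :=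
  AlgEquiv.restrictNormal_commutes σ (s56lf_F W) x

theorem s56lf_res_ker (hW : IsOpen (W : Set (s56lf_G q))) : (s56lf_res W).ker = W := by
  rw [s56lf_res, IntermediateField.restrictNormalHom_ker, s56lf_fixing W hW]

variable (U : Subgroup (s56lf_G q))

/-- The image of `U` in `Gal(F/ℚ_q)`. -/
noncomputable def s56lf_H : Subgroup ((s56lf_F W) ≃ₐ[ℚ_[q]] (s56lf_F W)) := U.map (s56lf_res W)

/-- The fixed field of `U` inside `F`. -/
noncomputable abbrev s56lf_E : IntermediateField ℚ_[q] (s56lf_F W) :=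
  IntermediateField.fixedField (s56lf_H W U)

variable [FiniteDimensional ℚ_[q] (s56lf_F W)]

/-- `U → Gal(F/E)`. -/
noncomputable def s56lf_r : ↥U →* ((s56lf_F W) ≃ₐ[s56lf_E W U] (s56lf_F W)) :=
  (IntermediateField.subgroupEquivAlgEquiv (s56lf_H W U)).toMonoidHom.comp
    ((s56lf_res W).subgroupMap U)

theorem s56lf_r_apply (u : ↥U) (x : s56lf_F W) :
    s56lf_r W U u x = s56lf_res W (u : s56lf_G q) x := rfl

theorem s56lf_r_coe (u : ↥U) (x : s56lf_F W) :
    ((s56lf_r W U u x : s56lf_F W) : PadicAlgCl q) = (u : s56lf_G q) (x : PadicAlgCl q) := by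
  rw [s56lf_r_apply, s56lf_res_coe]

theorem s56lf_r_surjective : Function.Surjective (s56lf_r W U) := by
  intro γ
  obtain ⟨⟨h, u, hu, rfl⟩, rfl⟩ :=
    (IntermediateField.subgroupEquivAlgEquiv (s56lf_H W U)).surjective γ
  exact ⟨⟨u, hu⟩, rfl⟩

theorem s56lf_r_eq_one_iff (u : ↥U) : s56lf_r W U u = 1 ↔ s56lf_res W (u : s56lf_G q) = 1 := by
  constructor
  · intro h
    ext x
    have := DFunLike.congr_fun h x
    rw [s56lf_r_apply] at this
    rw [this]
    rfl
  · intro h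
    ext x
    rw [s56lf_r_apply, h]
    rfl

theorem s56lf_r_ker (hW : IsOpen (W : Set (s56lf_G q))) :
    (s56lf_r W U).ker = W.subgroupOf U := by
  ext u
  rw [MonoidHom.mem_ker, s56lf_r_eq_one_iff, ← MonoidHom.mem_ker, s56lf_res_ker W hW,
    Subgroup.mem_subgroupOf]

theorem s56lf_card_gal (hW : IsOpen (W : Set (s56lf_G q))) :
    Nat.card ((s56lf_F W) ≃ₐ[s56lf_E W U] (s56lf_F W)) = (W.subgroupOf U).index := by
  rw [← s56lf_r_ker W U hW, Subgroup.index_ker, MonoidHom.range_eq_top.2 (s56lf_r_surjective W U)]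
  exact (Nat.card_congr (Subgroup.topEquiv (G := (s56lf_F W) ≃ₐ[s56lf_E W U] (s56lf_F W))).toEquiv).symm

theorem s56lf_index_H (hW : IsOpen (W : Set (s56lf_G q))) (hWU : W ≤ U) :
    (s56lf_H W U).index = U.index :=
  Subgroup.index_map_eq _ (s56lf_res_surjective W) (by rw [s56lf_res_ker W hW]; exact hWU)

theorem s56lf_finrank_E [IsGalois ℚ_[q] (s56lf_F W)] (hW : IsOpen (W : Set (s56lf_G q)))
    (hWU : W ≤ U) : Module.finrank ℚ_[q] (s56lf_E W U) = U.index := by
  rw [← s56lf_index_H W U hW hWU]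
  have h1 : Module.finrank ℚ_[q] (s56lf_E W U) * Module.finrank (s56lf_E W U) (s56lf_F W) =
      Module.finrank ℚ_[q] (s56lf_F W) := Module.finrank_mul_finrank _ _ _
  have h2 : Module.finrank (s56lf_E W U) (s56lf_F W) = Nat.card (s56lf_H W U) :=
    IntermediateField.finrank_fixedField_eq_card (s56lf_H W U)
  have h3 : Nat.card ((s56lf_F W) ≃ₐ[ℚ_[q]] (s56lf_F W)) = Module.finrank ℚ_[q] (s56lf_F W) :=
    IsGalois.card_aut_eq_finrank ℚ_[q] (s56lf_F W)
  have h4 := Subgroup.index_mul_card (s56lf_H W U)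
  have hpos : 0 < Nat.card (s56lf_H W U) := Nat.card_pos
  rw [h2, ← h3, ← h4] at h1
  exact Nat.eq_of_mul_eq_mul_right hpos h1

end Res

end Fermat.Agent.S56
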