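import Mathlib
import Fermat.Agent.S56.GW.LEC.Seams
import Fermat.Agent.S55.Idele.LocalField
import Fermat.Agent.S55.LevelFamily

/-!
# [GW-LEC] / [LEC-FLD] (helper28; prefix `s56lf_`): open subgroups of the local Galois group

`G_q = Gal(ℚ̄_q/ℚ_q)` with the Krull topology.
* `s56lf_isOpen_of_level` : a subgroup containing a level of `tl_levelsLoc q` is open;
* for an open normal subgroup `W`: `s56lf_F W = fixedField W` is a finite Galois extension of
  `ℚ_q`, `W` is its fixing subgroup, and `s56lf_res W : G_q →* Gal(F/ℚ_q)` is onto with kernel `W`.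
-/

set_option autoImplicit false

namespace Fermat.Agent.S56

open Fermat.Agent.S55 ExtCitation IntermediateField

local notation "Qbar" => AlgebraicClosure ℚ

section Open

variable (q : ℕ) [Fact q.Prime]

/-- `Gal(ℚ̄_q/ℚ_q)`. -/
abbrev s56lf_G : Type := PadicAlgCl q ≃ₐ[ℚ_[q]] PadicAlgCl q

instance s56lf_isGalois : IsGalois ℚ_[q] (PadicAlgCl q) := by
  have : IsAlgClosure ℚ_[q] (PadicAlgCl q) := inferInstance
  exact IsAlgClosure.isGalois ℚ_[q] (PadicAlgCl q)

/-- The preimage of `Fix L` (`L/ℚ` finite normal) in `G_q` is the fixing subgroup of `L·ℚ_q`. -/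
theorem s56lf_comap_fixing (L : IntermediateField ℚ Qbar) [FiniteDimensional ℚ L] [Normal ℚ L] :
    L.fixingSubgroup.comap (localGaloisToGlobal q) = (il_Lq q L).fixingSubgroup := by
  rw [← il_ker_res]
  ext τ
  rw [Subgroup.mem_comap, MonoidHom.mem_ker, ← tl_ker_restrictNormalHom L, MonoidHom.mem_ker]
  rfl

/-- A subgroup of `G_q` containing the preimage of a `Fix F`, `F/ℚ` finite, is open. -/
theorem s56lf_isOpen_of_le (W : Subgroup (s56lf_G q)) (F : IntermediateField ℚ Qbar)
    [FiniteDimensional ℚ F] (h : F.fixingSubgroup.comap (localGaloisToGlobal q) ≤ W) :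
    IsOpen (W : Set (s56lf_G q)) := by
  have hnQ : Normal ℚ Qbar :=
    @IsAlgClosure.normal ℚ Qbar _ _ _ ⟨inferInstance, AlgebraicClosure.isAlgebraic ℚ⟩
  have hnorm : Normal ℚ (IntermediateField.normalClosure ℚ F Qbar) :=
    normalClosure.normal ℚ F Qbar
  have hfin : FiniteDimensional ℚ (IntermediateField.normalClosure ℚ F Qbar) :=
    normalClosure.is_finiteDimensional ℚ F Qbar
  have h1 : (il_Lq q (IntermediateField.normalClosure ℚ F Qbar)).fixingSubgroup ≤ W := by
    rw [← s56lf_comap_fixing]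
    refine le_trans ?_ h
    intro τ hτ
    rw [Subgroup.mem_comap] at hτ ⊢
    exact IntermediateField.fixingSubgroup_antitone (IntermediateField.le_normalClosure F) hτ
  exact Subgroup.isOpen_mono h1
    (IntermediateField.fixingSubgroup_isOpen (il_Lq q (IntermediateField.normalClosure ℚ F Qbar)))

variable {q}

/-- An open subgroup as a closed subgroup. -/
noncomputable def s56lf_closed (W : Subgroup (s56lf_G q)) (hW : IsOpen (W : Set (s56lf_G q))) :
    ClosedSubgroup (s56lf_G q) :=
  ⟨W, Subgroup.isClosed_of_isOpen W hW⟩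

/-- The fixed field of `W`. -/
noncomputable abbrev s56lf_F (W : Subgroup (s56lf_G q)) : IntermediateField ℚ_[q] (PadicAlgCl q) :=
  IntermediateField.fixedField W

theorem s56lf_fixing (W : Subgroup (s56lf_G q)) (hW : IsOpen (W : Set (s56lf_G q))) :
    (s56lf_F W).fixingSubgroup = W :=
  InfiniteGalois.fixingSubgroup_fixedField (s56lf_closed W hW)

theorem s56lf_finite (W : Subgroup (s56lf_G q)) (hW : IsOpen (W : Set (s56lf_G q))) :
    FiniteDimensional ℚ_[q] (s56lf_F W) := by
  rw [← InfiniteGalois.isOpen_iff_finite, s56lf_fixing W hW]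
  exact hW

theorem s56lf_galois (W : Subgroup (s56lf_G q)) (hW : IsOpen (W : Set (s56lf_G q)))
    (hn : W.Normal) : IsGalois ℚ_[q] (s56lf_F W) := by
  rw [← InfiniteGalois.normal_iff_isGalois, s56lf_fixing W hW]
  exact hn

end Open

end Fermat.Agent.S56
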